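import Mathlib
import Fermat.Agent.MUL.S48.W.Hecke
import Fermat.Agent.MUL.Orig.Lib.Kronecker.Formal
import Fermat.Agent.MUL.Orig.Lib.Kronecker.NormEmb
import Fermat.Agent.MUL.Orig.F3.Galois.NormDesc
import Fermat.Agent.MUL.S48.W.G.Port.Defs
import Fermat.Agent.MUL.S48.W.G.Red.Igusa.AbsDefs

section MergeWrap_S48_W_G_Kron_AlgAbs -- from S48/W/G/Kron/AlgAbs.lean

set_option autoImplicit false
set_option linter.style.haveILetI false

noncomputable section

namespace Fermat.Agent.S48WKron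

open ModularCurve AlgebraicCurve Fermat.Agent.S48W Fermat.Agent.Kronecker

/-- the pointwise fixer of the image of a map into a ring with a group action. -/
def algFixer {Γ L X : Type*} [Group Γ] [Semiring L] [MulSemiringAction Γ L] (f : X → L) :
    Subgroup Γ where
  carrier := {g | ∀ x, g • f x = f x}
  one_mem' := fun x => one_smul _ _
  mul_mem' := fun {a b} ha hb x => by rw [mul_smul, hb x, ha x]
  inv_mem' := fun {a} ha x => by rw [inv_smul_eq_iff, ha x]

theorem mem_algFixer {Γ L X : Type*} [Group Γ] [Semiring L] [MulSemiringAction Γ L]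
    (f : X → L) (g : Γ) : g ∈ algFixer f ↔ ∀ x, g • f x = f x := Iff.rfl

/-- a subgroup covered by `n` cosets of a smaller subgroup has relative index `≤ n`. -/
theorem relindex_le_of_cover {Γ : Type*} [Group Γ] (H H' : Subgroup Γ) {ι : Type*} [Fintype ι]
    (c : ι → Γ) (hc : ∀ i, c i ∈ H) (hcov : ∀ g ∈ H, ∃ i, (c i)⁻¹ * g ∈ H') :
    H'.relIndex H ≤ Fintype.card ι := by
  classical
  rw [Subgroup.relIndex, Subgroup.index]
  let f : ι → H ⧸ H'.subgroupOf H := fun i => QuotientGroup.mk ⟨c i, hc i⟩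
  have hsurj : Function.Surjective f := by
    intro x
    induction x using QuotientGroup.induction_on with
    | H g =>
      obtain ⟨i, hi⟩ := hcov g g.2
      refine ⟨i, ?_⟩
      show (QuotientGroup.mk ⟨c i, hc i⟩ : H ⧸ H'.subgroupOf H) = QuotientGroup.mk g
      rw [QuotientGroup.eq]
      exact hi
  calc Nat.card (H ⧸ H'.subgroupOf H) ≤ Nat.card ι := Nat.card_le_card_of_surjective f hsurj
    _ = Fintype.card ι := Nat.card_eq_fintype_card

/-- **K4 (abstract twisted PROD)**, generic in the coefficient field `K`. -/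
theorem normProduct_abstract {K : Type} [Field K] [Algebra ℚ K]
    {F₀ F₁ : IntermediateField ℚ (LaurentSeries ℚ)} (h : F₀ ≤ F₁) (p : ℕ) [NeZero p]
    (hp : p.Prime) (hF : ∀ y ∈ F₀, qExpand ℚ p y ∈ F₁)
    (δ : laurentBaseChange K F₀ ≃ₐ[K] laurentBaseChange K F₀)
    {Γ L : Type} [Group Γ] [Field L] [MulSemiringAction Γ L] [Algebra K L] [SMulCommClass Γ K L]
    -- the embeddings in the ambient field and the expansion map (`u^m = q`, `m = m₀ p`)
    (m₀ : ℕ) [NeZero m₀] [NeZero (m₀ * p)]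
    (φ : laurentBaseChange K F₀ →ₐ[K] L) (φ' : laurentBaseChange K F₁ →ₐ[K] L)
    (hα : ∀ x, φ' (qSeriesAlpha K h x) = φ x)
    (ex : L →+* LaurentSeries K)
    (hex : ∀ x : laurentBaseChange K F₁, ex (φ' x) = qExpand K (m₀ * p) (x : LaurentSeries K))
    -- the Galois datum
    (t : laurentBaseChange K F₀)
    (hfin : ∃ Γ' : Subgroup Γ, Γ'.FiniteIndex ∧ ∀ g ∈ Γ', ∀ x : L, g • x = x)
    (ht : ∀ g : Γ, g • φ t = φ t)
    (hfix : ∀ x : L, (∀ g : Γ, g • x = x) → x ∈ IntermediateField.adjoin K {φ t})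
    -- the coset representatives
    (γ : ℕ → Γ) (hγ : ∀ b, ∀ x, γ b • φ x = φ x)
    (hcov : ∀ g : Γ, (∀ x, g • φ x = φ x) →
      (∀ x', g • φ' x' = φ' x') ∨ ∃ b < p, ∀ x', g • φ' x' = γ b • φ' x')
    -- the conjugate expansions
    (ζ : Kˣ) (hζ : IsPrimitiveRoot ζ p)
    (hconj : ∀ b < p, ∀ y : laurentBaseChange K F₀,
      ex (γ b • φ' (qSeriesBeta K p hF y)) =
        qExpand K m₀ (scaleL (ζ ^ b) ((δ y : laurentBaseChange K F₀) : LaurentSeries K)))
    -- a `δ`-fixed function with a simple pole at `q = 0` (`j`)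
    (y₀ : laurentBaseChange K F₀) (hy₀δ : δ y₀ = y₀)
    (hy₀ : (y₀ : LaurentSeries K).coeff (-1) ≠ 0) :
    ∀ y : laurentBaseChange K F₀,
      qExpand K p ((Fermat.Agent.F3G.normAlong (qSeriesAlpha K h)
          (qSeriesBeta K p hF y) : laurentBaseChange K F₀) : LaurentSeries K) =
        qExpand K (p * p) (y : LaurentSeries K) *
          ∏ b ∈ Finset.range p, scaleL (ζ ^ b)
            ((δ y : laurentBaseChange K F₀) : LaurentSeries K) := by
  classical
  intro y
  haveI : CharZero K := charZero_of_injective_algebraMap (algebraMap ℚ K).injective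
  set α := qSeriesAlpha K h with hαdef
  set β := qSeriesBeta K p hF with hβdef
  -- the stabilisers
  set H : Subgroup Γ := algFixer (fun x => φ x) with hH
  set H' : Subgroup Γ := algFixer (fun x => φ' x) with hH'
  have hle : H' ≤ H := by
    intro g hg x
    show g • φ x = φ x
    rw [← hα x]
    exact hg (α x)
  obtain ⟨hfd, hrank⟩ := finrank_hom_mul_index_eq_index (Γ := Γ) φ φ' α hα t hfin ht hfix
    H H' (fun g => Iff.rfl) (fun g => Iff.rfl)
  -- the `p + 1` elements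
  let g : Option (Fin p) → Γ := fun i => i.elim 1 (fun b => γ b)
  have hg : ∀ i, ∀ x : laurentBaseChange K F₀, g i • φ x = φ x := by
    intro i x
    cases i with
    | none => exact one_smul _ _
    | some b => exact hγ b x
  have hgH : ∀ i, g i ∈ H := fun i x => hg i x
  -- the degree
  have hHfin : H.index ≠ 0 := by
    obtain ⟨Γ', hΓ', hfixΓ'⟩ := hfin
    have hΓle : Γ' ≤ H := fun g hg x => hfixΓ' g hg _
    haveI := hΓ'
    exact (Subgroup.finiteIndex_of_le hΓle).index_ne_zero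
  have hrel : H'.relIndex H ≤ Fintype.card (Option (Fin p)) := by
    refine relindex_le_of_cover H H' g hgH fun a ha => ?_
    rcases hcov a ha with h1 | ⟨b, hb, h2⟩
    · refine ⟨none, ?_⟩
      show (1 : Γ)⁻¹ * a ∈ H'
      rw [inv_one, one_mul]
      exact h1
    · refine ⟨some ⟨b, hb⟩, ?_⟩
      show (γ b)⁻¹ * a ∈ H'
      intro x'
      show ((γ b)⁻¹ * a) • φ' x' = φ' x'
      rw [mul_smul, h2 x', inv_smul_smul]
  have hcard : (letI := α.toRingHom.toAlgebra
      Module.finrank (laurentBaseChange K F₀) (laurentBaseChange K F₁))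
        ≤ Fintype.card (Option (Fin p)) := by
    have h1 := Subgroup.relIndex_mul_index hle
    rw [← hrank] at h1
    have h2 := Nat.eq_of_mul_eq_mul_right (Nat.pos_of_ne_zero hHfin) h1
    rw [← h2]
    exact hrel
  -- distinctness: the coefficient of `u^{-m₀}` of the expansion of the conjugates of `β y₀`
  have hcoeff : ∀ i : Option (Fin p),
      (ex (g i • φ' (β y₀))).coeff (-(m₀ : ℤ))
        = i.elim 0 (fun b => (((ζ ^ (b : ℕ))⁻¹ : Kˣ) : K) * (y₀ : LaurentSeries K).coeff (-1)) := by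
    intro i
    cases i with
    | none =>
      show (ex ((1 : Γ) • φ' (β y₀))).coeff _ = 0
      rw [one_smul, hex]
      apply qExpand_coeff_of_not_dvd
      rw [Int.dvd_neg, Int.natCast_dvd_natCast]
      intro hdvd
      have hm₀ : 0 < m₀ := Nat.pos_of_ne_zero (NeZero.ne m₀)
      have h1 := Nat.le_of_dvd hm₀ hdvd
      have h2 : m₀ * 1 < m₀ * p := Nat.mul_lt_mul_of_pos_left hp.one_lt hm₀
      omega
    | some b =>
      show (ex (γ b • φ' (β y₀))).coeff _ = _
      rw [hconj b b.2 y₀, hy₀δ]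
      have h1 : (-(m₀ : ℤ)) = (m₀ : ℤ) * (-1) := by ring
      rw [h1, qExpand_coeff_mul, scaleL_coeff, zpow_neg_one]
      rfl
  have hdist : ∀ i j : Option (Fin p),
      (∀ x : laurentBaseChange K F₁, g i • φ' x = g j • φ' x) → i = j := by
    intro i j hij
    have h1 := hcoeff i
    rw [hij (β y₀), hcoeff j] at h1
    cases i with
    | none =>
      cases j with
      | none => rfl
      | some b' =>
        exact absurd h1 (mul_ne_zero (Units.ne_zero _) hy₀)
    | some b =>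
      cases j with
      | none => exact absurd h1.symm (mul_ne_zero (Units.ne_zero _) hy₀)
      | some b' =>
        have h2 : (((ζ ^ (b' : ℕ))⁻¹ : Kˣ) : K) = (((ζ ^ (b : ℕ))⁻¹ : Kˣ) : K) :=
          mul_right_cancel₀ hy₀ h1
        have h3 : ζ ^ (b : ℕ) = ζ ^ (b' : ℕ) := (inv_inj.mp (Units.ext h2)).symm
        exact congrArg some (Fin.ext (hζ.pow_inj b.2 b'.2 h3))
  have hprod := norm_hom_eq_prod_smul (Γ := Γ) φ φ' α hα hfd g hg hdist hcard (β y)
  have h1 := congrArg ex hprod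
  rw [← hα, hex, map_prod, Fintype.prod_option] at h1
  have h2 : ex (g none • φ' (β y)) = qExpand K (m₀ * p * p) (y : LaurentSeries K) := by
    show ex ((1 : Γ) • φ' (β y)) = _
    rw [one_smul, hex]
    show qExpand K (m₀ * p) (qExpand K p (y : LaurentSeries K)) = _
    rw [qExpand_qExpand]
  have h3 : ∀ b : Fin p, ex (g (some b) • φ' (β y))
      = qExpand K m₀ (scaleL (ζ ^ (b : ℕ)) ((δ y : laurentBaseChange K F₀) : LaurentSeries K)) :=
    fun b => hconj b b.2 y
  rw [h2, Finset.prod_congr rfl (fun b _ => h3 b),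
    Fin.prod_univ_eq_prod_range
      (fun b => qExpand K m₀ (scaleL (ζ ^ b)
        ((δ y : laurentBaseChange K F₀) : LaurentSeries K))) p] at h1
  apply qExpand_injective (N := m₀)
  rw [qExpand_qExpand, map_mul, map_prod, qExpand_qExpand,
    qExpand_congr (show m₀ * (p * p) = m₀ * p * p by ring)]
  exact h1

/-- **K4**, in the form of `S48WPort.NormProductGen` (coefficient field `ℚ̄`). -/
theorem normProductGen_of_abstract
    {F₀ F₁ : IntermediateField ℚ (LaurentSeries ℚ)} (h : F₀ ≤ F₁) (p : ℕ) [NeZero p]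
    (hp : p.Prime) (hF : ∀ y ∈ F₀, qExpand ℚ p y ∈ F₁)
    (δ : laurentBaseChange (AlgebraicClosure ℚ) F₀ ≃ₐ[AlgebraicClosure ℚ]
      laurentBaseChange (AlgebraicClosure ℚ) F₀)
    {Γ L : Type} [Group Γ] [Field L] [MulSemiringAction Γ L] [Algebra (AlgebraicClosure ℚ) L]
    [SMulCommClass Γ (AlgebraicClosure ℚ) L]
    (m₀ : ℕ) [NeZero m₀] [NeZero (m₀ * p)]
    (φ : laurentBaseChange (AlgebraicClosure ℚ) F₀ →ₐ[AlgebraicClosure ℚ] L)
    (φ' : laurentBaseChange (AlgebraicClosure ℚ) F₁ →ₐ[AlgebraicClosure ℚ] L)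
    (hα : ∀ x, φ' (qSeriesAlpha (AlgebraicClosure ℚ) h x) = φ x)
    (ex : L →+* LaurentSeries (AlgebraicClosure ℚ))
    (hex : ∀ x : laurentBaseChange (AlgebraicClosure ℚ) F₁,
      ex (φ' x) = qExpand (AlgebraicClosure ℚ) (m₀ * p) (x : LaurentSeries (AlgebraicClosure ℚ)))
    (t : laurentBaseChange (AlgebraicClosure ℚ) F₀)
    (hfin : ∃ Γ' : Subgroup Γ, Γ'.FiniteIndex ∧ ∀ g ∈ Γ', ∀ x : L, g • x = x)
    (ht : ∀ g : Γ, g • φ t = φ t)
    (hfix : ∀ x : L, (∀ g : Γ, g • x = x) →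
      x ∈ IntermediateField.adjoin (AlgebraicClosure ℚ) {φ t})
    (γ : ℕ → Γ) (hγ : ∀ b, ∀ x, γ b • φ x = φ x)
    (hcov : ∀ g : Γ, (∀ x, g • φ x = φ x) →
      (∀ x', g • φ' x' = φ' x') ∨ ∃ b < p, ∀ x', g • φ' x' = γ b • φ' x')
    (ζ : (AlgebraicClosure ℚ)ˣ) (hζ : IsPrimitiveRoot ζ p)
    (hconj : ∀ b < p, ∀ y : laurentBaseChange (AlgebraicClosure ℚ) F₀,
      ex (γ b • φ' (qSeriesBeta (AlgebraicClosure ℚ) p hF y)) =
        qExpand (AlgebraicClosure ℚ) m₀ (scaleL (ζ ^ b)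
          ((δ y : laurentBaseChange (AlgebraicClosure ℚ) F₀) :
            LaurentSeries (AlgebraicClosure ℚ))))
    (y₀ : laurentBaseChange (AlgebraicClosure ℚ) F₀) (hy₀δ : δ y₀ = y₀)
    (hy₀ : (y₀ : LaurentSeries (AlgebraicClosure ℚ)).coeff (-1) ≠ 0) :
    Fermat.Agent.S48WPort.NormProductGen h p hF δ :=
  ⟨ζ, hζ, normProduct_abstract h p hp hF δ m₀ φ φ' hα ex hex t hfin ht hfix γ hγ hcov ζ hζ
    hconj y₀ hy₀δ hy₀⟩

end Fermat.Agent.S48WKron
end
end MergeWrap_S48_W_G_Kron_AlgAbs
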