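import Mathlib
import Fermat.Agent.MUL.S24.GensExp
import Fermat.Agent.MUL.Orig.S48.W.G.Kron.EmbAbs

section MergeWrap_S48_W_G_Kron_ScaleExp -- from S48/W/G/Kron/ScaleExp.lean

set_option autoImplicit false

noncomputable section

namespace Fermat.Agent.S48WKron

open UpperHalfPlane ModularCurve Fermat.Agent.S24 Fermat.Agent.S24.GensExp
open scoped MatrixGroups

/-- `HasExp 1 f b ⟹ HasExp m (f ∘ (d ·)) (b(u^{m d}))`. -/
theorem hasExp_scale_of_one {f : Fun} {b : LaurentSeries Kbar} (h : HasExp 1 f b)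
    (m d : ℕ) [NeZero m] [NeZero d] :
    HasExp m (fun τ => f (scale d τ)) (qExpand Kbar (m * d) b) := by
  obtain ⟨k, P, rfl, hP⟩ := h
  have hm : 0 < m := Nat.pos_of_ne_zero (NeZero.ne m)
  have hd : 0 < d := Nat.pos_of_ne_zero (NeZero.ne d)
  have hmd : 0 < m * d := Nat.mul_pos hm hd
  set g : Fun := fun τ => f τ * uParam 1 τ ^ k / uParam 1 τ with hg
  have hgP : HasPExp 1 (fun τ => g τ * uParam 1 τ) P := by
    have e1 : (fun τ => g τ * uParam 1 τ) = fun τ => f τ * uParam 1 τ ^ k := by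
      funext τ
      rw [hg]
      exact div_mul_cancel₀ _ (uParam_ne_zero 1 τ)
    rw [e1]
    exact hP
  have hφ : ∀ τ : ℍ, uParam 1 (scale d τ) = iota 1 * uParam m τ ^ (m * d) := by
    intro τ
    rw [uParam_one_scale m d τ, map_one, one_mul]
  have h1 := hasPExp_subst hgP (scale d) 1 iota_one_norm (m * d) hmd hφ
  refine ⟨m * d * k, twist 1 (m * d) P, ?_, ?_⟩
  · rw [map_mul, qExpand_single, qExpand_ofPowerSeries]
    congr 2
    push_cast
    ring_nf
  · have e2 : (fun τ => g (scale d τ) * uParam m τ ^ (m * d))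
        = fun τ => f (scale d τ) * uParam m τ ^ (m * d * k) := by
      funext τ
      have hu := uParam_one_scale m d τ
      have hne : uParam m τ ^ (m * d) ≠ 0 := pow_ne_zero _ (uParam_ne_zero m τ)
      rw [hg]
      simp only
      rw [hu, div_mul_cancel₀ _ hne, ← pow_mul]
    rw [e2] at h1
    exact h1

/-- `HasExp 1 f b ⟹ HasExp m f (b(u^m))`. -/
theorem hasExp_of_one {f : Fun} {b : LaurentSeries Kbar} (h : HasExp 1 f b)
    (m : ℕ) [NeZero m] : HasExp m f (qExpand Kbar m b) := by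
  have h1 := hasExp_scale_of_one h m 1
  have e1 : (fun τ => f (scale 1 τ)) = f := by
    funext τ
    congr 1
    apply UpperHalfPlane.ext
    rw [coe_scale]
    simp
  rw [e1, qExpand_congr (mul_one m)] at h1
  exact h1

end Fermat.Agent.S48WKron
end
end MergeWrap_S48_W_G_Kron_ScaleExp
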