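import Mathlib
import Fermat.Agent.MUL.S36.Ig.EpsGen
import Fermat.Agent.MUL.Orig.S48.W.G.Kron.EmbAbs
import Fermat.Agent.MUL.S48.W.G.Kron.ScaleExp
import Fermat.Agent.MUL.S48.W.Hecke
import Fermat.Agent.MUL.S24.EmbFStab
import Fermat.Agent.MUL.S24.GensExp
import Fermat.Agent.MUL.S48.W.G.Kron.FrickeAmb
import Fermat.Agent.MUL.Lib.Kronecker.ConjGens2
import Fermat.Agent.MUL.S48.W.G.Kron.AlgAbs
import Fermat.Agent.MUL.S48.W.A1.Final
import Fermat.Agent.MUL.S48.W.A1.Slash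
import Fermat.Agent.MUL.S48.W.H.Defs

section MergeWrap_S48_W_G_Kron_Emb -- from S48/W/G/Kron/Emb.lean

set_option autoImplicit false

noncomputable section

namespace Fermat.Agent.S48WKron

open UpperHalfPlane CongruenceSubgroup ModularCurve Fermat.Agent.S24 Fermat.Agent.S48W
  Fermat.Agent.S48WA1
open scoped MatrixGroups

/-- **the deliverable of seat K1** at `(M, m₀)`: the analytic Fricke functions `f_a = frickeOne M a`
are modular functions of level `m₀` (holomorphic, expansions over `ℚ̄` at all cusps), the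
`q`-expansion of `f_a` is the formal `fricke M a`, and `f_a ∘ γ = f_{α a}` for
`γ = [α β; γ' δ] ∈ Γ₀(M)`. -/
structure FrickeInputs (M m₀ : ℕ) [NeZero M] [NeZero m₀] : Prop where
  isAHb : ∀ a : ℤ, ¬ (M : ℤ) ∣ a → IsAHb m₀ (frickeOne M a)
  hasExp : ∀ a : ℤ, ¬ (M : ℤ) ∣ a →
    HasExp 1 (frickeOne M a) (coeffEmb Kbar (fricke M (a : ZMod M)))
  smul : ∀ (a : ℤ) (γ : SL(2, ℤ)), γ ∈ Gamma0 M →
    ∀ τ : ℍ, frickeOne M a (γ • τ) = frickeOne M (a * γ 0 0) τ

section Gens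

variable {M m₀ : ℕ} [NeZero M] [NeZero m₀] (p : ℕ) [NeZero p]
variable (FI : FrickeInputs M m₀)

/-- the Fricke function `f_a` in the ambient field of level `m₀ p`. -/
def frAmb (a : ℤ) (ha : ¬ (M : ℤ) ∣ a) : LHb (m₀ * p) :=
  LHb.ofFun (frickeOne M a) ((FI.isAHb a ha).mono (dvd_mul_right m₀ p))

/-- the function `f_a(pτ)` in the ambient field of level `m₀ p`. -/
def frAmbB (a : ℤ) (ha : ¬ (M : ℤ) ∣ a) : LHb (m₀ * p) :=
  LHb.ofFun (fun τ => frickeOne M a (scale p τ)) ((FI.isAHb a ha).comp_scale p)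

theorem expLHb_frAmb (a : ℤ) (ha : ¬ (M : ℤ) ∣ a) :
    expLHb (m₀ * p) (frAmb p FI a ha) =
      qExpand Kbar (m₀ * p) (coeffEmb Kbar (fricke M (a : ZMod M))) :=
  expLHb_ofFun _ _ (hasExp_of_one (FI.hasExp a ha) (m₀ * p))

theorem expLHb_frAmbB (a : ℤ) (ha : ¬ (M : ℤ) ∣ a) :
    expLHb (m₀ * p) (frAmbB p FI a ha) =
      qExpand Kbar (m₀ * p * p) (coeffEmb Kbar (fricke M (a : ZMod M))) :=
  expLHb_ofFun _ _ (hasExp_scale_of_one (FI.hasExp a ha) (m₀ * p) p)

end Gens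

/-- a lift of `a : ZMod M`, `a ≠ 0`, to `ℤ`. -/
theorem not_dvd_val {M : ℕ} [NeZero M] {a : ZMod M} (ha : a ≠ 0) :
    ¬ (M : ℤ) ∣ ((a.val : ℕ) : ℤ) := by
  intro h
  apply ha
  have h1 := (ZMod.intCast_zmod_eq_zero_iff_dvd ((a.val : ℕ) : ℤ) M).mpr h
  rwa [Int.cast_natCast, ZMod.natCast_zmod_val] at h1

theorem cast_val {M : ℕ} [NeZero M] (a : ZMod M) : ((((a.val : ℕ) : ℤ)) : ZMod M) = a := by
  rw [Int.cast_natCast, ZMod.natCast_zmod_val]

section Emb

variable {M m₀ : ℕ} [NeZero M] [NeZero m₀] (p : ℕ) [NeZero p]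

variable (hMm : M ∣ m₀) (FI : FrickeInputs M m₀)

include hMm FI in
/-- the generators of `F₁(M)` are expansions of elements of the ambient field. -/
theorem genInRange_one :
    GenInRange (expLHb (m₀ * p)) (qExpandAlgHomC Kbar (m₀ * p)) (genOne M) := by
  rintro g (⟨d, hdne, hd, rfl⟩ | ⟨a, ha, rfl⟩)
  · have hd' : d ∣ m₀ * p := (hd.trans hMm).trans (dvd_mul_right m₀ p)
    rw [EmbFHom.qExpand_coeffEmb_jqd, ← expLHb_jdLHb (m₀ * p) d hd']
    exact AlgHom.mem_fieldRange.mpr ⟨_, rfl⟩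
  · have h1 := expLHb_frAmb p FI _ (not_dvd_val ha)
    rw [cast_val] at h1
    rw [qExpandAlgHomC_apply, ← h1]
    exact AlgHom.mem_fieldRange.mpr ⟨_, rfl⟩

include hMm FI in
/-- the functions `g(pτ)`, `g` a generator of `F₁(M)`, are expansions of elements of the ambient
field. -/
theorem genInRange_oneB :
    GenInRange (expLHb (m₀ * p)) (qExpandAlgHomC Kbar (m₀ * p * p)) (genOne M) := by
  rintro g (⟨d, hdne, hd, rfl⟩ | ⟨a, ha, rfl⟩)
  · haveI : NeZero (p * d) := ⟨Nat.mul_ne_zero (NeZero.ne p) (NeZero.ne d)⟩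
    have hd' : p * d ∣ m₀ * p := by
      rw [mul_comm p d]
      exact Nat.mul_dvd_mul (hd.trans hMm) dvd_rfl
    have h1 := expLHb_jdLHb (m₀ * p) (p * d) hd'
    rw [EmbFHom.qExpand_coeffEmb_jqd,
      qExpand_congr (show m₀ * p * p * d = m₀ * p * (p * d) by ring), ← h1]
    exact AlgHom.mem_fieldRange.mpr ⟨_, rfl⟩
  · have h1 := expLHb_frAmbB p FI _ (not_dvd_val ha)
    rw [cast_val] at h1
    rw [qExpandAlgHomC_apply, ← h1]
    exact AlgHom.mem_fieldRange.mpr ⟨_, rfl⟩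

/-- **the embedding of `F = ℚ̄ F₁(M)`** in the ambient field of level `m₀ p`. -/
def embOne : ↥(FOneBar M) →ₐ[Kbar] LHb (m₀ * p) :=
  embAbs (genInRange_one p hMm FI)

/-- `expLHb (embOne x) = x(u^m)`. -/
theorem expLHb_embOne (x : ↥(FOneBar M)) :
    expLHb (m₀ * p) (embOne p hMm FI x) = qExpand Kbar (m₀ * p) (x : LaurentSeries Kbar) :=
  e_embAbs (genInRange_one p hMm FI) x

/-- **the embedding `x ↦ x(pτ)` of `F = ℚ̄ F₁(M)`** in the ambient field of level `m₀ p`. -/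
def embOneB : ↥(FOneBar M) →ₐ[Kbar] LHb (m₀ * p) :=
  embAbs (genInRange_oneB p hMm FI)

/-- `expLHb (embOneB x) = x(u^{m p})`. -/
theorem expLHb_embOneB (x : ↥(FOneBar M)) :
    expLHb (m₀ * p) (embOneB p hMm FI x) =
      qExpand Kbar (m₀ * p * p) (x : LaurentSeries Kbar) :=
  e_embAbs (genInRange_oneB p hMm FI) x

include hMm FI in
/-- the generators of the field of level `Γ₁(M) ∩ Γ₀(p)` are expansions. -/
theorem genInRange_oneP :
    GenInRange (expLHb (m₀ * p)) (qExpandAlgHomC Kbar (m₀ * p))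
      ((FOne M : Set (LaurentSeries ℚ)) ∪ (qExpand ℚ p '' (FOne M))) := by
  rintro g (hg | ⟨y, hy, rfl⟩)
  · exact theta_coeffEmb_mem_fieldRange (genInRange_one p hMm FI) hg
  · have h1 := theta_coeffEmb_mem_fieldRange (genInRange_oneB p hMm FI) hy
    rw [qExpandAlgHomC_apply] at h1 ⊢
    rw [coeffEmb_qExpand_w, qExpand_qExpand]
    exact h1

/-- **the embedding of `F' = ℚ̄ F(Γ₁(M) ∩ Γ₀(p))`** in the ambient field of level `m₀ p`. -/
def embOneP : ↥(laurentBaseChange Kbar (FOneP M p)) →ₐ[Kbar] LHb (m₀ * p) :=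
  embAbs (genInRange_oneP p hMm FI)

/-- `expLHb (embOneP x) = x(u^m)`   (`hex` of K4). -/
theorem expLHb_embOneP (x : ↥(laurentBaseChange Kbar (FOneP M p))) :
    expLHb (m₀ * p) (embOneP p hMm FI x) = qExpand Kbar (m₀ * p) (x : LaurentSeries Kbar) :=
  e_embAbs (genInRange_oneP p hMm FI) x

/-- `φ' ∘ α = φ`   (`hα` of K4). -/
theorem embOneP_alpha (x : ↥(FOneBar M)) :
    embOneP p hMm FI (qSeriesAlpha Kbar (FOne_le_FOneP M p) x) = embOne p hMm FI x := by
  apply expLHb_injective (m₀ * p)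
  rw [expLHb_embOneP, expLHb_embOne, coe_qSeriesAlpha]

/-- `φ' ∘ β = (x ↦ x(pτ))`. -/
theorem embOneP_beta (x : ↥(FOneBar M)) :
    embOneP p hMm FI
        (qSeriesBeta Kbar p (fun _ hy => qExpand_mem_FOneP M p hy) x) = embOneB p hMm FI x := by
  apply expLHb_injective (m₀ * p)
  rw [expLHb_embOneP, expLHb_embOneB, coe_qSeriesBeta, qExpand_qExpand]

end Emb

end Fermat.Agent.S48WKron
end
end MergeWrap_S48_W_G_Kron_Emb

section MergeWrap_S48_W_G_Kron_EmbStab -- from S48/W/G/Kron/EmbStab.lean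

set_option autoImplicit false

noncomputable section

namespace Fermat.Agent.S48WKron

open UpperHalfPlane CongruenceSubgroup ModularCurve Fermat.Agent.S24 Fermat.Agent.S48W
  Fermat.Agent.S48WA1 Fermat.Agent.S24.EmbFStab Fermat.Agent.S24.Periods
open scoped MatrixGroups

theorem LHb.ofFun_congr {m : ℕ} [NeZero m] {f g : Fun} (hf : IsAHb m f) (hg : IsAHb m g)
    (h : f = g) : LHb.ofFun f hf = LHb.ofFun g hg := by
  subst h
  rfl

theorem isAHb_jd (m d : ℕ) [NeZero m] [NeZero d] (hd : d ∣ m) : IsAHb m (jd d) :=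
  AL_le_AHb m (jd_mem_AL hd)

theorem jdLHb_eq_ofFun (m d : ℕ) [NeZero m] [NeZero d] (hd : d ∣ m) :
    jdLHb m d hd = LHb.ofFun (jd d) (isAHb_jd m d hd) := rfl

theorem smul_jdLHb_iff (m d : ℕ) [NeZero m] [NeZero d] (hd : d ∣ m) (γ : SL(2, ℤ)) :
    γ • jdLHb m d hd = jdLHb m d hd ↔ γ • jd d = jd d := by
  rw [jdLHb_eq_ofFun, LHb.smul_ofFun]
  constructor
  · intro h
    exact LHb.ofFun_injective _ _ h
  · intro h
    exact LHb.ofFun_congr _ _ h

section Fix

variable {M m₀ : ℕ} [NeZero M] [NeZero m₀] (p : ℕ) [NeZero p]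
variable (hMm : M ∣ m₀) (FI : FrickeInputs M m₀)

include FI in
/-- `f_a` depends only on `a` modulo `M`. -/
theorem frickeOne_congr {a b : ℤ} (ha : ¬ (M : ℤ) ∣ a) (hab : (a : ZMod M) = (b : ZMod M)) :
    frickeOne M a = frickeOne M b := by
  have hb : ¬ (M : ℤ) ∣ b := by
    intro h
    apply ha
    rw [← ZMod.intCast_zmod_eq_zero_iff_dvd] at h ⊢
    rw [hab, h]
  have h1 := FI.hasExp a ha
  have h2 := FI.hasExp b hb
  rw [hab] at h1
  exact h1.fun_unique h2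

theorem smul_frAmb (a : ℤ) (ha : ¬ (M : ℤ) ∣ a) (γ : SL(2, ℤ)) :
    γ • frAmb p FI a ha = frAmb p FI a ha ↔ γ • frickeOne M a = frickeOne M a := by
  unfold frAmb
  rw [LHb.smul_ofFun]
  constructor
  · intro h
    exact LHb.ofFun_injective _ _ h
  · intro h
    exact LHb.ofFun_congr _ _ h

/-- `f(pτ)`. -/
def scaleFun (p : ℕ) [NeZero p] (f : Fun) : Fun := fun τ => f (scale p τ)

theorem smul_frAmbB (a : ℤ) (ha : ¬ (M : ℤ) ∣ a) (γ : SL(2, ℤ)) :
    γ • frAmbB p FI a ha = frAmbB p FI a ha ↔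
      γ • scaleFun p (frickeOne M a) = scaleFun p (frickeOne M a) := by
  have h1 : γ • frAmbB p FI a ha = LHb.ofFun (γ • scaleFun p (frickeOne M a))
      (((FI.isAHb a ha).comp_scale p).sl_smul γ) := LHb.smul_ofFun γ _ _
  have h2 : frAmbB p FI a ha = LHb.ofFun (scaleFun p (frickeOne M a))
      ((FI.isAHb a ha).comp_scale p) := rfl
  rw [h1, h2]
  constructor
  · intro h
    exact LHb.ofFun_injective _ _ h
  · intro h
    exact LHb.ofFun_congr _ _ h

/-- the generators of `φ(F)`. -/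
theorem mem_genSetAbs_one_iff (y : LHb (m₀ * p)) :
    y ∈ genSetAbs (expLHb (m₀ * p)) (qExpandAlgHomC Kbar (m₀ * p)) (genOne M) ↔
      (∃ (d : ℕ) (_ : NeZero d) (hd : d ∣ M),
          y = jdLHb (m₀ * p) d ((hd.trans hMm).trans (dvd_mul_right m₀ p))) ∨
        ∃ (a : ℤ) (ha : ¬ (M : ℤ) ∣ a), y = frAmb p FI a ha := by
  constructor
  · rintro ⟨g, (⟨d, hdne, hd, rfl⟩ | ⟨a, ha, rfl⟩), hy⟩
    · left
      refine ⟨d, hdne, hd, ?_⟩
      apply expLHb_injective (m₀ * p)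
      rw [hy, EmbFHom.qExpand_coeffEmb_jqd, expLHb_jdLHb]
    · right
      refine ⟨_, not_dvd_val ha, ?_⟩
      apply expLHb_injective (m₀ * p)
      rw [hy, expLHb_frAmb, cast_val, qExpandAlgHomC_apply]
  · rintro (⟨d, hdne, hd, rfl⟩ | ⟨a, ha, rfl⟩)
    · refine ⟨_, Or.inl ⟨d, hdne, hd, rfl⟩, ?_⟩
      rw [EmbFHom.qExpand_coeffEmb_jqd, expLHb_jdLHb]
    · have ha0 : ((a : ℤ) : ZMod M) ≠ 0 := by
        intro h
        exact ha ((ZMod.intCast_zmod_eq_zero_iff_dvd a M).mp h)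
      refine ⟨_, Or.inr ⟨(a : ZMod M), ha0, rfl⟩, ?_⟩
      rw [expLHb_frAmb, qExpandAlgHomC_apply]

include hMm in
/-- the generators of `φ_β(F)`. -/
theorem mem_genSetAbs_oneB (y : LHb (m₀ * p))
    (hy : y ∈ genSetAbs (expLHb (m₀ * p)) (qExpandAlgHomC Kbar (m₀ * p * p)) (genOne M)) :
    (∃ (d : ℕ) (_ : NeZero d) (_ : d ∣ M) (_ : NeZero (p * d)) (hd' : p * d ∣ m₀ * p),
          y = jdLHb (m₀ * p) (p * d) hd') ∨
        ∃ (a : ℤ) (ha : ¬ (M : ℤ) ∣ a), y = frAmbB p FI a ha := by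
  obtain ⟨g, (⟨d, hdne, hd, rfl⟩ | ⟨a, ha, rfl⟩), hy⟩ := hy
  · left
    have hne : NeZero (p * d) := ⟨Nat.mul_ne_zero (NeZero.ne p) (NeZero.ne d)⟩
    have hd' : p * d ∣ m₀ * p := by
      rw [mul_comm p d]
      exact Nat.mul_dvd_mul (hd.trans hMm) dvd_rfl
    refine ⟨d, hdne, hd, hne, hd', ?_⟩
    apply expLHb_injective (m₀ * p)
    rw [hy, EmbFHom.qExpand_coeffEmb_jqd, expLHb_jdLHb,
      qExpand_congr (show m₀ * p * p * d = m₀ * p * (p * d) by ring)]
  · right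
    refine ⟨_, not_dvd_val ha, ?_⟩
    apply expLHb_injective (m₀ * p)
    rw [hy, expLHb_frAmbB, cast_val, qExpandAlgHomC_apply]

/-- `γ` fixes `φ(F)` iff `γ ∈ Γ₀(M)` and `γ` fixes the `f_a`. -/
theorem smul_embOne_iff (γ : SL(2, ℤ)) :
    (∀ x : ↥(FOneBar M), γ • embOne p hMm FI x = embOne p hMm FI x) ↔
      γ ∈ Gamma0 M ∧ ∀ a : ℤ, ¬ (M : ℤ) ∣ a → γ • frickeOne M a = frickeOne M a := by
  refine (smul_embAbs_iff (genInRange_one p hMm FI) γ).trans ?_
  rw [mem_Gamma0_iff_forall_smul_jd]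
  constructor
  · intro h
    refine ⟨fun d hdne hd => ?_, fun a ha => ?_⟩
    · have h1 := h _ ((mem_genSetAbs_one_iff p hMm FI _).mpr (Or.inl ⟨d, hdne, hd, rfl⟩))
      exact (smul_jdLHb_iff _ _ _ γ).mp h1
    · have h1 := h _ ((mem_genSetAbs_one_iff p hMm FI _).mpr (Or.inr ⟨a, ha, rfl⟩))
      exact (smul_frAmb p FI a ha γ).mp h1
  · rintro ⟨h1, h2⟩ y hy
    rcases (mem_genSetAbs_one_iff p hMm FI y).mp hy with ⟨d, hdne, hd, rfl⟩ | ⟨a, ha, rfl⟩
    · exact (smul_jdLHb_iff _ _ _ γ).mpr (h1 d hdne hd)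
    · exact (smul_frAmb p FI a ha γ).mpr (h2 a ha)

include FI in
/-- `Γ₁(M)` fixes the `f_a`. -/
theorem smul_frickeOne_of_mem_Gamma1 {γ : SL(2, ℤ)} (hγ : γ ∈ Gamma1 M) (a : ℤ)
    (ha : ¬ (M : ℤ) ∣ a) : γ • frickeOne M a = frickeOne M a := by
  have hinv : γ⁻¹ ∈ Gamma1 M := inv_mem hγ
  have h0 : γ⁻¹ ∈ Gamma0 M := by
    rw [Gamma1_mem] at hinv
    rw [Gamma0_mem]
    exact hinv.2.2
  have h00 : (((γ⁻¹ : SL(2, ℤ)) 0 0 : ℤ) : ZMod M) = 1 := by
    rw [Gamma1_mem] at hinv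
    exact hinv.1
  ext τ
  rw [Fun.sl_smul_apply, FI.smul a γ⁻¹ h0 τ]
  have hab : ((a : ℤ) : ZMod M) = ((a * (γ⁻¹ : SL(2, ℤ)) 0 0 : ℤ) : ZMod M) := by
    push_cast
    rw [h00, mul_one]
  rw [← frickeOne_congr FI ha hab]

/-- **`hΓ1`**: `Γ₁(M)` fixes `φ(F)` pointwise. -/
theorem smul_embOne_of_mem_Gamma1 {γ : SL(2, ℤ)} (hγ : γ ∈ Gamma1 M) (x : ↥(FOneBar M)) :
    γ • embOne p hMm FI x = embOne p hMm FI x := by
  have h0 : γ ∈ Gamma0 M := by
    rw [Gamma1_mem] at hγ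
    rw [Gamma0_mem]
    exact hγ.2.2
  exact (smul_embOne_iff p hMm FI γ).mpr
    ⟨h0, fun a ha => smul_frickeOne_of_mem_Gamma1 FI hγ a ha⟩ x

/-- an element of `Γ₀(p)` which fixes `φ(F)` fixes `φ_β(F)` (`p` prime to `M`). -/
theorem smul_embOneB_of_fix (hpM : Nat.Coprime p M) {γ : SL(2, ℤ)}
    (hfix : ∀ x : ↥(FOneBar M), γ • embOne p hMm FI x = embOne p hMm FI x)
    (hγp : γ ∈ Gamma0 p) (x : ↥(FOneBar M)) :
    γ • embOneB p hMm FI x = embOneB p hMm FI x := by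
  obtain ⟨h0, hfr⟩ := (smul_embOne_iff p hMm FI γ).mp hfix
  refine (smul_embAbs_iff (genInRange_oneB p hMm FI) γ).mpr ?_ x
  intro y hy
  have hM10 : (M : ℤ) ∣ γ 1 0 := dvd_of_mem_Gamma0 h0
  have hp10 : (p : ℤ) ∣ γ 1 0 := dvd_of_mem_Gamma0 hγp
  have hcop : IsCoprime (p : ℤ) (M : ℤ) := Nat.isCoprime_iff_coprime.mpr hpM
  rcases mem_genSetAbs_oneB p hMm FI y hy with ⟨d, hdne, hd, hne, hd', rfl⟩ | ⟨a, ha, rfl⟩
  · rw [smul_jdLHb_iff]
    apply smul_jd_of_mem_Gamma0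
    apply mem_Gamma0_of_dvd
    have hd10 : (d : ℤ) ∣ γ 1 0 := (Int.natCast_dvd_natCast.mpr hd).trans hM10
    have hcop' : IsCoprime (p : ℤ) (d : ℤ) :=
      hcop.of_isCoprime_of_dvd_right (Int.natCast_dvd_natCast.mpr hd)
    have := hcop'.mul_dvd hp10 hd10
    push_cast
    exact this
  · rw [smul_frAmbB]
    -- the conjugate of `γ⁻¹`
    have hinv0 : γ⁻¹ ∈ Gamma0 M := inv_mem h0
    have hinvp : γ⁻¹ ∈ Gamma0 p := inv_mem hγp
    obtain ⟨c', hc⟩ := dvd_of_mem_Gamma0 hinvp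
    have hMc' : (M : ℤ) ∣ c' := by
      have h1 : (M : ℤ) ∣ (p : ℤ) * c' := by
        rw [← hc]
        exact dvd_of_mem_Gamma0 hinv0
      exact hcop.symm.dvd_of_dvd_mul_left h1
    have hconj0 : scaleConj p γ⁻¹ c' hc ∈ Gamma0 M := by
      apply mem_Gamma0_of_dvd
      exact hMc'
    have e00 : (scaleConj p γ⁻¹ c' hc) 0 0 = (γ⁻¹ : SL(2, ℤ)) 0 0 := rfl
    -- `f_{a δ} = f_a`
    have hδ : frickeOne M (a * (γ⁻¹ : SL(2, ℤ)) 0 0) = frickeOne M a := by
      ext τ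
      rw [← FI.smul a γ⁻¹ hinv0 τ]
      have := congrArg (fun f : Fun => f τ) (hfr a ha)
      simpa only [Fun.sl_smul_apply] using this
    funext τ
    show frickeOne M a (scale p (γ⁻¹ • τ)) = frickeOne M a (scale p τ)
    rw [scale_smul_eq p γ⁻¹ c' hc τ, FI.smul a _ hconj0, e00, hδ]

/-- **`hS`**: an element of `Γ₀(p)` which fixes `φ(F)` pointwise fixes `φ'(F')` pointwise
(`p` prime to `M`). -/
theorem smul_embOneP_of_fix (hpM : Nat.Coprime p M) {γ : SL(2, ℤ)}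
    (hfix : ∀ x : ↥(FOneBar M), γ • embOne p hMm FI x = embOne p hMm FI x)
    (hγp : γ ∈ Gamma0 p) (x' : ↥(laurentBaseChange Kbar (FOneP M p))) :
    γ • embOneP p hMm FI x' = embOneP p hMm FI x' := by
  refine (smul_embAbs_iff (genInRange_oneP p hMm FI) γ).mpr ?_ x'
  rintro y ⟨g, (hg | ⟨x, hx, rfl⟩), hy⟩
  · have h1 : embOne p hMm FI ⟨coeffEmb Kbar g, coeffEmb_mem_laurentBaseChange Kbar hg⟩ = y := by
      apply expLHb_injective (m₀ * p)
      rw [expLHb_embOne, hy, qExpandAlgHomC_apply]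
    rw [← h1]
    exact hfix _
  · have h1 : embOneB p hMm FI ⟨coeffEmb Kbar x, coeffEmb_mem_laurentBaseChange Kbar hx⟩ = y := by
      apply expLHb_injective (m₀ * p)
      rw [expLHb_embOneB, hy, qExpandAlgHomC_apply, coeffEmb_qExpand_w, qExpand_qExpand]
    rw [← h1]
    exact smul_embOneB_of_fix p hMm FI hpM hfix hγp _

end Fix

end Fermat.Agent.S48WKron
end
end MergeWrap_S48_W_G_Kron_EmbStab

section MergeWrap_S48_W_G_Kron_Coset -- from S48/W/G/Kron/Coset.lean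

set_option autoImplicit false

noncomputable section

namespace Fermat.Agent.S48WKron

open UpperHalfPlane Fermat.Agent.S24 Fermat.Agent.S24.GensExp CongruenceSubgroup
open scoped MatrixGroups

/-- Bezout coefficient `w`: `p w - M k = 1`. -/
def kronW (M p : ℕ) : ℤ := Int.gcdA p M

/-- Bezout coefficient `k`: `p w - M k = 1`. -/
def kronK (M p : ℕ) : ℤ := -Int.gcdB p M

theorem kron_bezout {M p : ℕ} (hpM : Nat.Coprime p M) :
    (p : ℤ) * kronW M p - (M : ℤ) * kronK M p = 1 := by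
  have h := Int.gcd_eq_gcd_ab (p : ℤ) (M : ℤ)
  have h1 : Int.gcd (p : ℤ) (M : ℤ) = 1 := by
    rw [Int.gcd_natCast_natCast]
    exact hpM
  rw [h1] at h
  simp only [kronW, kronK]
  push_cast at h
  linarith

/-- `δ = [[1, k], [M, p w]]`. -/
def kronDelta (M p : ℕ) (hpM : Nat.Coprime p M) : SL(2, ℤ) :=
  ⟨!![1, kronK M p; (M : ℤ), (p : ℤ) * kronW M p], by
    rw [Matrix.det_fin_two_of]
    have := kron_bezout hpM
    linarith⟩

/-- `δ' = [[p, k], [M, w]]`. -/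
def kronDelta' (M p : ℕ) (hpM : Nat.Coprime p M) : SL(2, ℤ) :=
  ⟨!![(p : ℤ), kronK M p; (M : ℤ), kronW M p], by
    rw [Matrix.det_fin_two_of]
    have := kron_bezout hpM
    linarith⟩

@[simp] theorem kronDelta_00 (M p : ℕ) (hpM : Nat.Coprime p M) : kronDelta M p hpM 0 0 = 1 := rfl
@[simp] theorem kronDelta_01 (M p : ℕ) (hpM : Nat.Coprime p M) :
    kronDelta M p hpM 0 1 = kronK M p := rfl
@[simp] theorem kronDelta_10 (M p : ℕ) (hpM : Nat.Coprime p M) : kronDelta M p hpM 1 0 = M := rfl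
@[simp] theorem kronDelta_11 (M p : ℕ) (hpM : Nat.Coprime p M) :
    kronDelta M p hpM 1 1 = (p : ℤ) * kronW M p := rfl

@[simp] theorem kronDelta'_00 (M p : ℕ) (hpM : Nat.Coprime p M) : kronDelta' M p hpM 0 0 = p := rfl
@[simp] theorem kronDelta'_01 (M p : ℕ) (hpM : Nat.Coprime p M) :
    kronDelta' M p hpM 0 1 = kronK M p := rfl
@[simp] theorem kronDelta'_10 (M p : ℕ) (hpM : Nat.Coprime p M) : kronDelta' M p hpM 1 0 = M := rfl
@[simp] theorem kronDelta'_11 (M p : ℕ) (hpM : Nat.Coprime p M) :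
    kronDelta' M p hpM 1 1 = kronW M p := rfl

theorem kronDelta_mem_Gamma1 (M p : ℕ) (hpM : Nat.Coprime p M) :
    kronDelta M p hpM ∈ Gamma1 M := by
  rw [Gamma1_mem]
  refine ⟨by simp, ?_, by simp⟩
  have h := kron_bezout hpM
  have h2 : (p : ℤ) * kronW M p = 1 + (M : ℤ) * kronK M p := by linarith
  rw [kronDelta_11, h2]
  simp

theorem kronDelta'_mem_Gamma0 (M p : ℕ) (hpM : Nat.Coprime p M) :
    kronDelta' M p hpM ∈ Gamma0 M := by
  rw [Gamma0_mem]
  simp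

/-- the upper left entry of `δ'` is `p` modulo `M`. -/
theorem kronDelta'_00_cast (M p : ℕ) (hpM : Nat.Coprime p M) :
    ((kronDelta' M p hpM 0 0 : ℤ) : ZMod M) = (p : ZMod M) := by
  simp

/-- the lower right entry of `δ'` is `p⁻¹` modulo `M`. -/
theorem kronDelta'_11_cast_mul (M p : ℕ) (hpM : Nat.Coprime p M) :
    (p : ZMod M) * ((kronDelta' M p hpM 1 1 : ℤ) : ZMod M) = 1 := by
  have h := kron_bezout hpM
  have h2 : (p : ℤ) * kronW M p = 1 + (M : ℤ) * kronK M p := by linarith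
  have h3 := congrArg (Int.cast : ℤ → ZMod M) h2
  push_cast at h3
  simpa using h3

/-- `p · δ(τ) = δ'(τ / p)`. -/
theorem scale_kronDelta_smul (M p : ℕ) [NeZero p] (hpM : Nat.Coprime p M) (τ : ℍ) :
    scale p (kronDelta M p hpM • τ) =
      kronDelta' M p hpM • aff 1 p 0 Nat.one_pos (Nat.pos_of_ne_zero (NeZero.ne p)) τ := by
  apply UpperHalfPlane.ext
  have h1 := sl2_denom_ne_zero (kronDelta M p hpM) τ
  have h2 := sl2_denom_ne_zero (kronDelta' M p hpM)
    (aff 1 p 0 Nat.one_pos (Nat.pos_of_ne_zero (NeZero.ne p)) τ)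
  have hp : (p : ℂ) ≠ 0 := by exact_mod_cast NeZero.ne p
  rw [coe_scale, coe_sl2_smul, coe_sl2_smul, coe_aff]
  rw [coe_aff] at h2
  simp only [kronDelta_00, kronDelta_01, kronDelta_10, kronDelta_11, kronDelta'_00, kronDelta'_01,
    kronDelta'_10, kronDelta'_11] at h1 h2 ⊢
  push_cast at h1 h2 ⊢
  field_simp
  ring

/-- `γ_b = T^b δ⁻¹`. -/
def kronGamma (M p : ℕ) (hpM : Nat.Coprime p M) (b : ℕ) : SL(2, ℤ) :=
  ModularGroup.T ^ b * (kronDelta M p hpM)⁻¹

theorem T_mem_Gamma1_kron (M : ℕ) : ModularGroup.T ∈ Gamma1 M := by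
  rw [Gamma1_mem]
  simp [ModularGroup.T]

theorem kronGamma_mem_Gamma1 (M p : ℕ) (hpM : Nat.Coprime p M) (b : ℕ) :
    kronGamma M p hpM b ∈ Gamma1 M :=
  mul_mem (pow_mem (T_mem_Gamma1_kron M) b) (inv_mem (kronDelta_mem_Gamma1 M p hpM))

theorem kronGamma_inv (M p : ℕ) (hpM : Nat.Coprime p M) (b : ℕ) :
    (kronGamma M p hpM b)⁻¹ = kronDelta M p hpM * (ModularGroup.T ^ b)⁻¹ := by
  rw [kronGamma, mul_inv_rev, inv_inv]

theorem coe_T_pow_inv_smul (b : ℕ) (τ : ℍ) :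
    (((ModularGroup.T ^ b)⁻¹ • τ : ℍ) : ℂ) = (τ : ℂ) - b := by
  have h : (ModularGroup.T ^ b)⁻¹ = ModularGroup.T ^ (-(b : ℤ)) := by
    rw [zpow_neg, zpow_natCast]
  rw [h, coe_sl2_smul, ModularGroup.coe_T_zpow]
  simp
  ring

/-- `p · γ_b⁻¹(τ) = δ'((τ - b) / p)`. -/
theorem scale_kronGamma_inv_smul (M p : ℕ) [NeZero p] (hpM : Nat.Coprime p M) (b : ℕ) (τ : ℍ) :
    scale p ((kronGamma M p hpM b)⁻¹ • τ) =
      kronDelta' M p hpM •
        aff 1 p (-(b : ℤ)) Nat.one_pos (Nat.pos_of_ne_zero (NeZero.ne p)) τ := by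
  rw [kronGamma_inv, mul_smul, scale_kronDelta_smul]
  congr 1
  apply UpperHalfPlane.ext
  rw [coe_aff, coe_aff, coe_T_pow_inv_smul]
  push_cast
  ring

/-- the lower left entry of `γ_b⁻¹ g`. -/
theorem kronGamma_inv_mul_10 (M p : ℕ) (hpM : Nat.Coprime p M) (b : ℕ) (g : SL(2, ℤ)) :
    ((kronGamma M p hpM b)⁻¹ * g) 1 0
      = (M : ℤ) * (g 0 0 - b * g 1 0) + (p : ℤ) * kronW M p * g 1 0 := by
  have hT : (ModularGroup.T ^ b)⁻¹ = ModularGroup.T ^ (-(b : ℤ)) := by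
    rw [zpow_neg, zpow_natCast]
  rw [kronGamma_inv, hT]
  simp only [Matrix.SpecialLinearGroup.coe_mul, Matrix.mul_apply, Fin.sum_univ_two,
    ModularGroup.coe_T_zpow, kronDelta_10, kronDelta_11]
  simp
  ring

/-- **the covering**: every `g` is in `Γ₀(p)` or in `γ_b Γ₀(p)` for some `b < p`. -/
theorem kron_cover (M p : ℕ) (hp : p.Prime) (hpM : Nat.Coprime p M) (g : SL(2, ℤ)) :
    g ∈ Gamma0 p ∨ ∃ b < p, (kronGamma M p hpM b)⁻¹ * g ∈ Gamma0 p := by
  have : Fact p.Prime := ⟨hp⟩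
  by_cases hc : ((g 1 0 : ℤ) : ZMod p) = 0
  · left
    rw [Gamma0_mem]
    exact hc
  · right
    -- `b ≡ a c⁻¹`
    set b : ℕ := (((g 0 0 : ℤ) : ZMod p) * (((g 1 0 : ℤ) : ZMod p))⁻¹).val with hb
    refine ⟨b, ZMod.val_lt _, ?_⟩
    rw [Gamma0_mem, kronGamma_inv_mul_10]
    push_cast
    have hbc : ((b : ℕ) : ZMod p) = ((g 0 0 : ℤ) : ZMod p) * (((g 1 0 : ℤ) : ZMod p))⁻¹ := by
      rw [hb, ZMod.natCast_zmod_val]
    rw [hbc, mul_assoc _ (((g 1 0 : ℤ) : ZMod p))⁻¹, inv_mul_cancel₀ hc, mul_one, sub_self,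
      mul_zero, zero_add]
    simp

/-- **`hcov`, group form.** -/
theorem kron_hcov_of (M p : ℕ) (hp : p.Prime) (hpM : Nat.Coprime p M)
    (H H' : Subgroup SL(2, ℤ)) (hH : Gamma1 M ≤ H) (hH' : H ⊓ Gamma0 p ≤ H')
    (g : SL(2, ℤ)) (hg : g ∈ H) :
    g ∈ H' ∨ ∃ b < p, (kronGamma M p hpM b)⁻¹ * g ∈ H' := by
  rcases kron_cover M p hp hpM g with h | ⟨b, hb, h⟩
  · exact Or.inl (hH' (Subgroup.mem_inf.mpr ⟨hg, h⟩))
  · refine Or.inr ⟨b, hb, hH' (Subgroup.mem_inf.mpr ⟨?_, h⟩)⟩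
    exact H.mul_mem (H.inv_mem (hH (kronGamma_mem_Gamma1 M p hpM b))) hg

/-- **`hcov`, action form**: if `H ⊓ Γ₀(p)` fixes `y`, then every `g ∈ H` moves `y` to `y` or to
some `γ_b • y`. -/
theorem kron_hcov_smul_of {α : Type*} [MulAction SL(2, ℤ) α] (M p : ℕ) (hp : p.Prime)
    (hpM : Nat.Coprime p M) (H : Subgroup SL(2, ℤ)) (hH : Gamma1 M ≤ H) (S : Set α)
    (hS : ∀ h ∈ H ⊓ Gamma0 p, ∀ y ∈ S, h • y = y) (g : SL(2, ℤ)) (hg : g ∈ H) :
    (∀ y ∈ S, g • y = y) ∨ ∃ b < p, ∀ y ∈ S, g • y = kronGamma M p hpM b • y := by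
  rcases kron_hcov_of M p hp hpM H (H ⊓ Gamma0 p) hH le_rfl g hg with h | ⟨b, hb, h⟩
  · exact Or.inl fun y hy => hS g h y hy
  · refine Or.inr ⟨b, hb, fun y hy => ?_⟩
    have h1 := hS _ h y hy
    rw [mul_smul] at h1
    calc g • y = kronGamma M p hpM b • (kronGamma M p hpM b)⁻¹ • g • y := by
          rw [smul_inv_smul]
      _ = kronGamma M p hpM b • y := by rw [h1]

end Fermat.Agent.S48WKron
end
end MergeWrap_S48_W_G_Kron_Coset

section MergeWrap_S48_W_G_Kron_Conj -- from S48/W/G/Kron/Conj.lean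

set_option autoImplicit false
set_option linter.style.haveILetI false

noncomputable section

namespace Fermat.Agent.S48WKron

open ModularCurve UpperHalfPlane Fermat.Agent.S24 Fermat.Agent.S24.GensExp Fermat.Agent.S48W
  Fermat.Agent.S48WA1 Fermat.Agent.Kronecker
open scoped MatrixGroups

/-! ### extensionality for ring homomorphisms on `K · ℚ(G)` -/

section Ext

variable {K : Type*} [Field K] [Algebra ℚ K]

/-- a subfield of `K((q))` containing the constants and the generators contains `K · ℚ(G)`. -/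
theorem kcj_mem_subfield (G : Set (LaurentSeries ℚ)) (S : Subfield (LaurentSeries K))
    (hc : ∀ c : K, algebraMap K (LaurentSeries K) c ∈ S)
    (hg : ∀ g ∈ G, coeffEmb K g ∈ S) {x : LaurentSeries K}
    (hx : x ∈ laurentBaseChange K (IntermediateField.adjoin ℚ G)) : x ∈ S := by
  have hrat : ∀ z : LaurentSeries ℚ, z ∈ IntermediateField.adjoin ℚ G → coeffEmb K z ∈ S := by
    intro z hz
    induction hz using IntermediateField.adjoin_induction with
    | mem x hx => exact hg x hx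
    | algebraMap c =>
      have h1 : coeffEmb K (algebraMap ℚ (LaurentSeries ℚ) c) = ((c : ℚ) : LaurentSeries K) := by
        rw [eq_ratCast, map_ratCast]
      rw [h1]
      exact SubfieldClass.ratCast_mem S c
    | add x y _ _ hx hy =>
      rw [map_add]
      exact add_mem hx hy
    | inv x _ hx =>
      rw [map_inv₀]
      exact inv_mem hx
    | mul x y _ _ hx hy =>
      rw [map_mul]
      exact mul_mem hx hy
  unfold laurentBaseChange at hx
  induction hx using IntermediateField.adjoin_induction with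
  | mem x hx =>
    obtain ⟨y, hy, rfl⟩ := hx
    exact hrat y hy
  | algebraMap c => exact hc c
  | add x y _ _ hx hy => exact add_mem hx hy
  | inv x _ hx => exact inv_mem hx
  | mul x y _ _ hx hy => exact mul_mem hx hy

/-- two ring homomorphisms from `K · ℚ(G)` to a field that agree on the constants and on the
generators are equal. -/
theorem kcj_ringHom_ext (G : Set (LaurentSeries ℚ)) {R : Type*} [Field R]
    (Φ₁ Φ₂ : ↥(laurentBaseChange K (IntermediateField.adjoin ℚ G)) →+* R)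
    (hc : ∀ c : K, Φ₁ (algebraMap K _ c) = Φ₂ (algebraMap K _ c))
    (hg : ∀ g (hg : g ∈ G),
      Φ₁ ⟨coeffEmb K g,
          coeffEmb_mem_laurentBaseChange K (IntermediateField.subset_adjoin ℚ G hg)⟩ =
        Φ₂ ⟨coeffEmb K g,
          coeffEmb_mem_laurentBaseChange K (IntermediateField.subset_adjoin ℚ G hg)⟩)
    (x : ↥(laurentBaseChange K (IntermediateField.adjoin ℚ G))) : Φ₁ x = Φ₂ x := by
  let S : Subfield (LaurentSeries K) := (RingHom.eqLocusField Φ₁ Φ₂).map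
    (laurentBaseChange K (IntermediateField.adjoin ℚ G)).val.toRingHom
  have hS : ∀ y : LaurentSeries K, y ∈ S →
      ∀ hy : y ∈ laurentBaseChange K (IntermediateField.adjoin ℚ G),
        Φ₁ ⟨y, hy⟩ = Φ₂ ⟨y, hy⟩ := by
    intro y hy hyF
    obtain ⟨w, hw, hwy⟩ := (Subfield.mem_map).mp hy
    have : w = ⟨y, hyF⟩ := Subtype.ext hwy
    rw [← this]
    exact hw
  have hmem : (x : LaurentSeries K) ∈ S := by
    refine kcj_mem_subfield G S (fun c => ?_) (fun g hg' => ?_) x.2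
    · exact (Subfield.mem_map).mpr
        ⟨algebraMap K (laurentBaseChange K (IntermediateField.adjoin ℚ G)) c, hc c, rfl⟩
    · exact (Subfield.mem_map).mpr ⟨⟨coeffEmb K g,
        coeffEmb_mem_laurentBaseChange K (IntermediateField.subset_adjoin ℚ G hg')⟩,
        hg g hg', rfl⟩
  exact hS x hmem x.2

end Ext

/-! ### substitution `u ↦ u^k`, explicit form -/

theorem kcj_substPS_one (k : ℕ) (P : PowerSeries Kbar) :
    substPS 1 k P = HasExp.expandPS k P := by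
  ext n
  rw [coeff_substPS, HasExp.expandPS, PowerSeries.coeff_mk]
  split_ifs with h
  · rw [one_pow, one_mul]
  · rfl

/-- Substitution `u_{M₀} ∘ φ = u_M^k` in a Laurent expansion: the expansion is `A(u^k)`. -/
theorem kcj_hasExp_comp {M₀ M : ℕ} {g : Fun} {A : LaurentSeries Kbar}
    (hg : HasExp M₀ g A) (φ : ℍ → ℍ) (k : ℕ) [NeZero k]
    (hφ : ∀ τ, uParam M₀ (φ τ) = uParam M τ ^ k) :
    HasExp M (fun τ => g (φ τ)) (qExpand Kbar k A) := by
  obtain ⟨μ, P, rfl, hP⟩ := hg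
  have hk : 0 < k := Nat.pos_of_ne_zero (NeZero.ne k)
  have h1 := hasPExp_substPS hP φ 1 (by rw [map_one, norm_one]) k hk
    (fun τ => by rw [hφ τ, map_one, one_mul])
  rw [kcj_substPS_one] at h1
  refine ⟨k * μ, HasExp.expandPS k P, ?_, HasExp.pexp_congr h1 fun τ => ?_⟩
  · have e : (k : ℤ) * -(μ : ℤ) = -((k * μ : ℕ) : ℤ) := by push_cast; ring
    rw [map_mul, qExpand_single, HasExp.qExpand_ofPowerSeries, e]
  · show g (φ τ) * uParam M τ ^ (k * μ) = g (φ τ) * uParam M₀ (φ τ) ^ μ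
    rw [hφ τ, pow_mul]

/-- `q(τ/p) = u_{N p}(τ)^N`. -/
theorem kcj_uParam_aff (N p : ℕ) [NeZero N] [NeZero p] (τ : ℍ) :
    uParam 1 (aff 1 p 0 Nat.one_pos (Nat.pos_of_ne_zero (NeZero.ne p)) τ)
      = uParam (N * p) τ ^ N := by
  rw [uParam_one_aff (N * p) 1 p N 0 Nat.one_pos (Nat.pos_of_ne_zero (NeZero.ne p))
    (mul_comm N p) (Nat.pos_of_ne_zero (NeZero.ne N))]
  simp

/-- `aff 1 p 0 (T^{-b} τ) = aff 1 p (-b) τ`. -/
theorem kcj_aff_T_pow_inv (p : ℕ) [NeZero p] (b : ℕ) (τ : ℍ) :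
    aff 1 p 0 Nat.one_pos (Nat.pos_of_ne_zero (NeZero.ne p)) ((ModularGroup.T ^ b)⁻¹ • τ)
      = aff 1 p (-(b : ℤ)) Nat.one_pos (Nat.pos_of_ne_zero (NeZero.ne p)) τ := by
  apply UpperHalfPlane.ext
  rw [coe_aff, coe_aff, coe_T_pow_inv_smul]
  push_cast
  ring

/-- the expansion of `τ ↦ f((τ - b)/p)` in `u = e(τ/(N p))`: `A(ζ^b u^N)`, `ζ = e(-1/p)`. -/
theorem kcj_hasExp_comp_aff (N p : ℕ) [NeZero N] [NeZero p] [NeZero (N * p)] (z : Kbarˣ)
    (hz : iota (z : Kbar) = Complex.exp (2 * Real.pi * Complex.I / ((N * p : ℕ) : ℂ)))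
    {f : Fun} {A : LaurentSeries Kbar} (hf : HasExp 1 f A) (b : ℕ) :
    HasExp (N * p)
      (fun τ => f (aff 1 p (-(b : ℤ)) Nat.one_pos (Nat.pos_of_ne_zero (NeZero.ne p)) τ))
      (qExpand Kbar N (scaleL ((z⁻¹ ^ N) ^ b) A)) := by
  have h0 : HasExp (N * p)
      (fun τ => f (aff 1 p 0 Nat.one_pos (Nat.pos_of_ne_zero (NeZero.ne p)) τ))
      (qExpand Kbar N A) :=
    kcj_hasExp_comp hf _ N (kcj_uParam_aff N p)
  have h1 := hasExp_T_pow_smul (N * p) z hz h0 b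
  rw [scaleL_qExpand, pow_right_comm] at h1
  refine hasExp_congr_fun h1 fun τ => ?_
  show _ = f (aff 1 p 0 _ _ ((ModularGroup.T ^ b)⁻¹ • τ))
  rw [kcj_aff_T_pow_inv]

/-! ### the root of unity -/

/-- `z = e(1/m)` as a unit of `ℚ̄`. -/
def kronRoot (m : ℕ) [NeZero m] : Kbarˣ :=
  Units.mk0 (HasExp.exists_iota_eq_exp m).choose (by
    intro h
    have h1 := (HasExp.exists_iota_eq_exp m).choose_spec
    rw [h, map_zero] at h1
    exact Complex.exp_ne_zero _ h1.symm)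

theorem iota_kronRoot (m : ℕ) [NeZero m] :
    iota (kronRoot m : Kbar) = Complex.exp (2 * Real.pi * Complex.I / m) :=
  (HasExp.exists_iota_eq_exp m).choose_spec

theorem kronRoot_isPrimitiveRoot (m : ℕ) [NeZero m] : IsPrimitiveRoot (kronRoot m) m := by
  have h1 : IsPrimitiveRoot (iota (kronRoot m : Kbar)) m := by
    rw [iota_kronRoot]
    exact Complex.isPrimitiveRoot_exp m (NeZero.ne m)
  have h2 : IsPrimitiveRoot (kronRoot m : Kbar) m := h1.of_map_of_injective iota_injective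
  exact IsPrimitiveRoot.coe_units_iff.mp h2

/-- `ζ = e(-1/p) = (z⁻¹)^{M M}`, `z = e(1/(M M p))`. -/
def kronZeta (M p : ℕ) [NeZero (M * M * p)] : Kbarˣ := (kronRoot (M * M * p))⁻¹ ^ (M * M)

theorem kronZeta_isPrimitiveRoot (M p : ℕ) [NeZero (M * M * p)] :
    IsPrimitiveRoot (kronZeta M p) p := by
  have h := (kronRoot_isPrimitiveRoot (M * M * p)).inv
  have hp : p ≠ 0 := fun h0 => NeZero.ne (M * M * p) (by rw [h0, mul_zero])
  exact h.pow (Nat.pos_of_ne_zero (NeZero.ne (M * M * p))) rfl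

/-! ### the Fricke generators -/

/-- `f_a ∘ p`, `τ ↦ F_{(a,0)}(M p τ)`. -/
def kronFrickeP (M p : ℕ) [NeZero M] [NeZero p] (a : ℤ) : Fun :=
  fun τ => frickeOne M a (scale p τ)

/-- `(γ_b • (f_a ∘ p))(τ) = f_{a p}((τ - b)/p)`. -/
theorem kcj_kronGamma_smul_fricke (M p : ℕ) [NeZero M] [NeZero p] (hpM : Nat.Coprime p M)
    (b : ℕ) (a : ℤ) (τ : ℍ) :
    (kronGamma M p hpM b • kronFrickeP M p a) τ
      = frickeOne M (a * p)
          (aff 1 p (-(b : ℤ)) Nat.one_pos (Nat.pos_of_ne_zero (NeZero.ne p)) τ) := by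
  show frickeOne M a (scale p ((kronGamma M p hpM b)⁻¹ • τ)) = _
  rw [scale_kronGamma_inv_smul, frickeOneSmul M a _ (kronDelta'_mem_Gamma0 M p hpM),
    kronDelta'_00]

theorem kcj_not_dvd_mul (M p : ℕ) (hpM : Nat.Coprime p M) {a : ℤ} (ha : ¬ (M : ℤ) ∣ a) :
    ¬ (M : ℤ) ∣ a * p := by
  intro h
  apply ha
  have hc : IsCoprime (M : ℤ) (p : ℤ) := by
    rw [Int.isCoprime_iff_gcd_eq_one, Int.gcd_natCast_natCast]
    exact hpM.symm
  exact hc.dvd_of_dvd_mul_right h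

/-- the expansion of `f_a ∘ p` in `u = e(τ/(M M p))`. -/
theorem kcj_hasExp_fricke_scale (M p : ℕ) [NeZero M] [NeZero p] [NeZero (M * M * p)]
    (a : ℤ) (ha : ¬ (M : ℤ) ∣ a) :
    HasExp (M * M * p) (kronFrickeP M p a)
      (qExpand Kbar (M * M * p) (qExpand Kbar p (coeffEmb Kbar (fricke M (a : ZMod M))))) := by
  haveI : NeZero (M * M * p * p) := ⟨mul_ne_zero (NeZero.ne _) (NeZero.ne p)⟩
  rw [qExpand_qExpand]
  exact kcj_hasExp_comp (frickeOneExp M a ha) (scale p) (M * M * p * p)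
    (fun τ => uParam_one_scale (M * M * p) p τ)

/-- the expansion of `γ_b • (f_a ∘ p)`: `fricke (p a)(ζ^b u^{M M})`. -/
theorem kcj_hasExp_conj_fricke (M p : ℕ) [NeZero M] [NeZero p] [NeZero (M * M)]
    [NeZero (M * M * p)] (hpM : Nat.Coprime p M) (b : ℕ) (a : ℤ) (ha : ¬ (M : ℤ) ∣ a) :
    HasExp (M * M * p) (kronGamma M p hpM b • kronFrickeP M p a)
      (qExpand Kbar (M * M) (scaleL (kronZeta M p ^ b)
        (coeffEmb Kbar (fricke M ((p : ZMod M) * (a : ZMod M)))))) := by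
  have h1 := kcj_hasExp_comp_aff (M * M) p (kronRoot (M * M * p))
    (iota_kronRoot (M * M * p)) (frickeOneExp M (a * p) (kcj_not_dvd_mul M p hpM ha)) b
  have e : (((a * p : ℤ)) : ZMod M) = (p : ZMod M) * (a : ZMod M) := by
    push_cast
    ring
  rw [e] at h1
  exact hasExp_congr_fun h1 (kcj_kronGamma_smul_fricke M p hpM b a)

/-! ### the generators `j(q^d)` -/

theorem kcj_scale_mul (d p : ℕ) [NeZero d] [NeZero p] [NeZero (d * p)] (τ : ℍ) :
    scale (d * p) τ = scale d (scale p τ) := by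
  apply UpperHalfPlane.ext
  rw [coe_scale, coe_scale, coe_scale]
  push_cast
  ring

theorem kcj_scale_aff (d p : ℕ) [NeZero d] [NeZero p] (τ : ℍ) :
    scale d (aff 1 p 0 Nat.one_pos (Nat.pos_of_ne_zero (NeZero.ne p)) τ)
      = aff d p 0 (Nat.pos_of_ne_zero (NeZero.ne d)) (Nat.pos_of_ne_zero (NeZero.ne p)) τ := by
  apply UpperHalfPlane.ext
  rw [coe_scale, coe_aff, coe_aff]
  push_cast
  ring

/-- `(δ⁻¹ • j_{d p})(τ) = j(d τ / p)` for `d ∣ M`. -/
theorem kcj_kronDelta_inv_smul_jd (M p d : ℕ) [NeZero p] [NeZero d] [NeZero (d * p)]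
    (hpM : Nat.Coprime p M) (hd : d ∣ M) :
    ((kronDelta M p hpM)⁻¹ • jd (d * p) : Fun) =
      fun τ => jFun (aff d p 0 (Nat.pos_of_ne_zero (NeZero.ne d))
        (Nat.pos_of_ne_zero (NeZero.ne p)) τ) := by
  obtain ⟨c, hc⟩ := hd
  have hc' : kronDelta' M p hpM 1 0 = (d : ℤ) * (c : ℤ) := by
    rw [kronDelta'_10, hc]
    push_cast
    rfl
  funext τ
  show jd (d * p) ((kronDelta M p hpM)⁻¹⁻¹ • τ) = _
  rw [inv_inv]
  show jFun (scale (d * p) (kronDelta M p hpM • τ)) = _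
  rw [kcj_scale_mul, scale_kronDelta_smul, scale_smul_eq d _ (c : ℤ) hc', jFun_smul_pt,
    kcj_scale_aff]

/-- the expansion of `γ_b • j_{d p}`: `j_d(ζ^b u^{M M})`. -/
theorem kcj_hasExp_conj_jd (M p d : ℕ) [NeZero M] [NeZero p] [NeZero d] [NeZero (d * p)]
    [NeZero (M * M)] [NeZero (M * M * p)] (hpM : Nat.Coprime p M) (hd : d ∣ M) (b : ℕ) :
    HasExp (M * M * p) (kronGamma M p hpM b • jd (d * p))
      (qExpand Kbar (M * M) (scaleL (kronZeta M p ^ b) (qExpand Kbar d (jqModC Kbar)))) := by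
  unfold kronGamma
  rw [mul_smul, kcj_kronDelta_inv_smul_jd M p d hpM hd]
  have h1 := hasExp_T_pow_smul (M * M * p) (kronRoot (M * M * p)) (iota_kronRoot (M * M * p))
    (hasExp_jFun_aff (M * M) d p) b
  have e : scaleL ((kronRoot (M * M * p))⁻¹ ^ b) (qExpand Qb (d * (M * M)) (jqModC Qb)) =
      qExpand Qb (M * M) (scaleL (kronZeta M p ^ b) (qExpand Qb d (jqModC Qb))) := by
    unfold kronZeta
    rw [qExpand_congr (mul_comm d (M * M)), ← qExpand_qExpand, scaleL_qExpand, pow_right_comm]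
  rw [← e]
  exact h1

/-- the expansion of `j_{d p}` in `u = e(τ/(M M p))`. -/
theorem kcj_hasExp_jd_scale (M p d : ℕ) [NeZero M] [NeZero p] [NeZero d] [NeZero (d * p)]
    [NeZero (M * M * p)] (hd : d ∣ M) :
    HasExp (M * M * p) (jd (d * p))
      (qExpand Kbar (M * M * p)
        (qExpand Kbar p (coeffEmb Kbar (qExpand ℚ d jq)))) := by
  have hd' : d * p ∣ M * M * p := Nat.mul_dvd_mul_right (hd.trans (dvd_mul_left M M)) p
  have h1 := hasExp_jd (M * M * p) (d * p) hd'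
  have e : coeffEmb Kbar (qExpand ℚ d jq) = qExpand Kbar d (jqModC Kbar) := by
    unfold coeffEmb
    rw [coeffMap_qExpand_w, ← jqModC_rat, coeffMap_jqModC]
  rw [e, qExpand_qExpand, qExpand_qExpand, qExpand_congr (show M * M * p * p * d
    = M * M * p * (d * p) by ring)]
  exact h1

theorem kcj_isAHb_jd_scale (M p d : ℕ) [NeZero M] [NeZero p] [NeZero d] [NeZero (d * p)]
    [NeZero (M * M * p)] (hd : d ∣ M) : IsAHb (M * M * p) (jd (d * p)) :=
  AL_le_AHb (M * M * p)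
    (jd_mem_AL (Nat.mul_dvd_mul_right (hd.trans (dvd_mul_left M M)) p))

/-! ### the conjugate expansions -/

/-- an element of the ambient field with the expansion of a function of the ambient ring is this
function; hence the expansion of its conjugates. -/
theorem kcj_expLHb_smul {m : ℕ} [NeZero m] (x : LHb m) (F : Fun) (hF : IsAHb m F)
    {A B : LaurentSeries Kbar} (hx : expLHb m x = A) (hFA : HasExp m F A) (γ : SL(2, ℤ))
    (hB : HasExp m (γ • F) B) : expLHb m (γ • x) = B := by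
  have h1 : x = LHb.ofFun F hF := by
    apply expLHb_injective m
    rw [hx, expLHb_ofFun F hF hFA]
  rw [h1, LHb.smul_ofFun]
  exact expLHb_ofFun _ _ hB

theorem kcj_coeffEmb_jqd (d : ℕ) [NeZero d] :
    coeffEmb Kbar (qExpand ℚ d jq) = qExpand Kbar d (jqModC Kbar) := by
  unfold coeffEmb
  rw [coeffMap_qExpand_w, ← jqModC_rat, coeffMap_jqModC]

theorem kcj_compScale : CompScale := fun _ d _ _ _ _ hf => IsAHb.comp_scale d hf

/-- **K3a (`hconj`)**: the expansions of the conjugates `γ_b • φ'(y(q^p))`. -/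
theorem kron_hconj (M p : ℕ) [NeZero M] [NeZero p] [NeZero (M * M)] [NeZero (M * M * p)]
    (hpM : Nat.Coprime p M)
    (δ : FOneBar M ≃ₐ[Kbar] FOneBar M) (hδ : IsDiamond M (ZMod.unitOfCoprime p hpM) δ)
    (φ' : laurentBaseChange Kbar (FOneP M p) →ₐ[Kbar] LHb (M * M * p))
    (hex : ∀ x : laurentBaseChange Kbar (FOneP M p),
      expLHb (M * M * p) (φ' x) = qExpand Kbar (M * M * p) (x : LaurentSeries Kbar))
    (b : ℕ) (y : laurentBaseChange Kbar (FOne M)) :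
    expLHb (M * M * p) (kronGamma M p hpM b •
        φ' (qSeriesBeta Kbar p (fun _ hy => qExpand_mem_FOneP M p hy) y)) =
      qExpand Kbar (M * M) (scaleL (kronZeta M p ^ b)
        ((δ y : laurentBaseChange Kbar (FOne M)) : LaurentSeries Kbar)) := by
  let Φ₁ : ↥(laurentBaseChange Kbar (FOne M)) →+* LaurentSeries Kbar :=
    ((expLHb (M * M * p)).toRingHom).comp
      ((MulSemiringAction.toRingHom SL(2, ℤ) (LHb (M * M * p)) (kronGamma M p hpM b)).comp
        (φ'.toRingHom.comp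
          (qSeriesBeta Kbar p (fun _ hy => qExpand_mem_FOneP M p hy)).toRingHom))
  let Φ₂ : ↥(laurentBaseChange Kbar (FOne M)) →+* LaurentSeries Kbar :=
    (qExpand Kbar (M * M)).comp ((scaleL (kronZeta M p ^ b)).comp
      ((laurentBaseChange Kbar (FOne M)).val.toRingHom.comp δ.toAlgHom.toRingHom))
  have hc : ∀ c : Kbar, Φ₁ (algebraMap Kbar _ c) = Φ₂ (algebraMap Kbar _ c) := by
    intro c
    show expLHb (M * M * p) (kronGamma M p hpM b •
        φ' (qSeriesBeta Kbar p (fun _ hy => qExpand_mem_FOneP M p hy) (algebraMap Kbar _ c))) =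
      qExpand Kbar (M * M) (scaleL (kronZeta M p ^ b)
        ((δ (algebraMap Kbar _ c) : laurentBaseChange Kbar (FOne M)) : LaurentSeries Kbar))
    rw [AlgHom.commutes, AlgHom.commutes, smul_algebraMap, AlgHom.commutes, AlgEquiv.commutes]
    show _ = qExpand Kbar (M * M) (scaleL (kronZeta M p ^ b)
      (algebraMap Kbar (LaurentSeries Kbar) c))
    rw [scaleL_algebraMap, qExpand_algebraMap]
  have hg : ∀ g (hg : g ∈ genOne M),
      Φ₁ ⟨coeffEmb Kbar g,
          coeffEmb_mem_laurentBaseChange Kbar (IntermediateField.subset_adjoin ℚ _ hg)⟩ =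
        Φ₂ ⟨coeffEmb Kbar g,
          coeffEmb_mem_laurentBaseChange Kbar (IntermediateField.subset_adjoin ℚ _ hg)⟩ := by
    intro g hg
    rcases hg with ⟨d, hdne, hd, rfl⟩ | ⟨a, ha, rfl⟩
    · -- `j(q^d)`
      haveI := hdne
      haveI : NeZero (d * p) := ⟨mul_ne_zero (NeZero.ne d) (NeZero.ne p)⟩
      have hmem : coeffEmb Kbar (qExpand ℚ d jq) ∈ FOneBar M :=
        coeffEmb_mem_laurentBaseChange Kbar
          (IntermediateField.subset_adjoin ℚ _ (Or.inl ⟨d, hdne, hd, rfl⟩))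
      have h1 := hδ.1 (qExpand ℚ d jq) ⟨d, hdne, hd, rfl⟩ hmem
      show expLHb (M * M * p) (kronGamma M p hpM b •
          φ' (qSeriesBeta Kbar p (fun _ hy => qExpand_mem_FOneP M p hy)
            ⟨coeffEmb Kbar (qExpand ℚ d jq), hmem⟩)) =
        qExpand Kbar (M * M) (scaleL (kronZeta M p ^ b)
          ((δ ⟨coeffEmb Kbar (qExpand ℚ d jq), hmem⟩ : laurentBaseChange Kbar (FOne M)) :
            LaurentSeries Kbar))
      rw [h1]
      show _ = qExpand Kbar (M * M) (scaleL (kronZeta M p ^ b)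
        (coeffEmb Kbar (qExpand ℚ d jq)))
      have h3 := kcj_hasExp_conj_jd M p d hpM hd b
      rw [← kcj_coeffEmb_jqd] at h3
      exact kcj_expLHb_smul _ (jd (d * p)) (kcj_isAHb_jd_scale M p d hd) (hex _)
        (kcj_hasExp_jd_scale M p d hd) _ h3
    · -- the Fricke functions
      have hmem : coeffEmb Kbar (fricke M a) ∈ FOneBar M :=
        coeffEmb_mem_laurentBaseChange Kbar
          (IntermediateField.subset_adjoin ℚ _ (Or.inr ⟨a, ha, rfl⟩))
      have hpa : (p : ZMod M) * a ≠ 0 := by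
        intro h0
        apply ha
        have hu : IsUnit (p : ZMod M) := (ZMod.isUnit_iff_coprime p M).mpr hpM
        exact (hu.mul_right_eq_zero).mp h0
      have hmem' : coeffEmb Kbar (fricke M ((p : ZMod M) * a)) ∈ FOneBar M :=
        coeffEmb_mem_laurentBaseChange Kbar
          (IntermediateField.subset_adjoin ℚ _ (Or.inr ⟨_, hpa, rfl⟩))
      have h1 := hδ.2 a ha hmem (by rw [ZMod.coe_unitOfCoprime]; exact hmem')
      -- an integer lift of `a`
      have hcast : (((a.val : ℕ) : ℤ) : ZMod M) = a := by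
        rw [Int.cast_natCast, ZMod.natCast_zmod_val]
      have ha' : ¬ (M : ℤ) ∣ ((a.val : ℕ) : ℤ) := by
        rw [← ZMod.intCast_zmod_eq_zero_iff_dvd, hcast]
        exact ha
      show expLHb (M * M * p) (kronGamma M p hpM b •
          φ' (qSeriesBeta Kbar p (fun _ hy => qExpand_mem_FOneP M p hy)
            ⟨coeffEmb Kbar (fricke M a), hmem⟩)) =
        qExpand Kbar (M * M) (scaleL (kronZeta M p ^ b)
          ((δ ⟨coeffEmb Kbar (fricke M a), hmem⟩ : laurentBaseChange Kbar (FOne M)) :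
            LaurentSeries Kbar))
      rw [h1]
      show _ = qExpand Kbar (M * M) (scaleL (kronZeta M p ^ b)
        (coeffEmb Kbar (fricke M (((ZMod.unitOfCoprime p hpM : (ZMod M)ˣ) : ZMod M) * a))))
      rw [ZMod.coe_unitOfCoprime]
      have h2 := kcj_hasExp_fricke_scale M p ((a.val : ℕ) : ℤ) ha'
      have h3 := kcj_hasExp_conj_fricke M p hpM b ((a.val : ℕ) : ℤ) ha'
      rw [hcast] at h2 h3
      exact kcj_expLHb_smul _ (kronFrickeP M p ((a.val : ℕ) : ℤ))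
        (isAHb_frickeOne_scale kcj_compScale M p _ ha') (hex _) h2 _ h3
  exact kcj_ringHom_ext (genOne M) Φ₁ Φ₂ hc hg y

/-- `hconj` in the exact form of `normProduct_abstract` (`ex = expLHb` as a ring
homomorphism, `γ = kronGamma M p hpM`, `ζ = kronZeta M p`, `m₀ = M * M`). -/
theorem kron_hconj_ringHom (M p : ℕ) [NeZero M] [NeZero p] [NeZero (M * M)]
    [NeZero (M * M * p)] (hpM : Nat.Coprime p M)
    (δ : FOneBar M ≃ₐ[Kbar] FOneBar M) (hδ : IsDiamond M (ZMod.unitOfCoprime p hpM) δ)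
    (φ' : laurentBaseChange Kbar (FOneP M p) →ₐ[Kbar] LHb (M * M * p))
    (hex : ∀ x : laurentBaseChange Kbar (FOneP M p),
      ((expLHb (M * M * p) : LHb (M * M * p) →+* LaurentSeries Kbar)) (φ' x) =
        qExpand Kbar (M * M * p) (x : LaurentSeries Kbar)) :
    ∀ b < p, ∀ y : laurentBaseChange Kbar (FOne M),
      ((expLHb (M * M * p) : LHb (M * M * p) →+* LaurentSeries Kbar))
          (kronGamma M p hpM b •
            φ' (qSeriesBeta Kbar p (fun _ hy => qExpand_mem_FOneP M p hy) y)) =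
        qExpand Kbar (M * M) (scaleL (kronZeta M p ^ b)
          ((δ y : laurentBaseChange Kbar (FOne M)) : LaurentSeries Kbar)) :=
  fun b _ y => kron_hconj M p hpM δ hδ φ' hex b y

end Fermat.Agent.S48WKron
end
end MergeWrap_S48_W_G_Kron_Conj

section MergeWrap_S48_W_G_Kron_FrickeAmbFinal -- from S48/W/G/Kron/FrickeAmbFinal.lean

set_option autoImplicit false

noncomputable section

namespace Fermat.Agent.S48WKron

open UpperHalfPlane Fermat.Agent.S24 Fermat.Agent.S48WA1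
open scoped MatrixGroups Manifold

/-- **K1a**: `frickeOne M a` is of level `M * M`. -/
theorem isAHb_frickeOne_final (M : ℕ) [NeZero M] (a : ℤ) (ha : ¬ (M : ℤ) ∣ a) :
    IsAHb (M * M) (frickeOne M a) :=
  IsAHb.comp_scale M (isAHb_frickeFun M a 0 (isNZ_zero_right ha))

/-- **K1a**: `frickeOne M a ∘ scale p` is of level `M * M * p`. -/
theorem isAHb_frickeOne_scale_final (M p : ℕ) [NeZero M] [NeZero p] (a : ℤ)
    (ha : ¬ (M : ℤ) ∣ a) :
    IsAHb (M * M * p) (fun τ => frickeOne M a (scale p τ)) :=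
  haveI : NeZero (M * M) := ⟨mul_ne_zero (NeZero.ne M) (NeZero.ne M)⟩
  IsAHb.comp_scale p (isAHb_frickeOne_final M a ha)

/-- `frickeOne M a` in every level divisible by `M * M`. -/
theorem isAHb_frickeOne_of_dvd (M m : ℕ) [NeZero M] [NeZero m] (h : M * M ∣ m) (a : ℤ)
    (ha : ¬ (M : ℤ) ∣ a) : IsAHb m (frickeOne M a) :=
  haveI : NeZero (M * M) := ⟨mul_ne_zero (NeZero.ne M) (NeZero.ne M)⟩
  IsAHb.mono h (isAHb_frickeOne_final M a ha)

end Fermat.Agent.S48WKron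
end
end MergeWrap_S48_W_G_Kron_FrickeAmbFinal

section MergeWrap_S48_W_G_Kron_Final -- from S48/W/G/Kron/Final.lean

set_option autoImplicit false
set_option linter.style.haveILetI false

noncomputable section

namespace Fermat.Agent.S48WKron

open ModularCurve AlgebraicCurve Fermat.Agent.S48W Fermat.Agent.Kronecker CongruenceSubgroup
  Fermat.Agent.S24 Fermat.Agent.S48WA1
open scoped MatrixGroups

/-- **K1**: the analytic inputs on the Fricke functions, at the ambient level `M²`. -/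
theorem frickeInputs_final (M : ℕ) [NeZero M] [NeZero (M * M)] : FrickeInputs M (M * M) where
  isAHb := fun a ha => isAHb_frickeOne_final M a ha
  hasExp := fun a ha => frickeOneExp M a ha
  smul := fun a γ hγ τ => frickeOneSmul M a γ hγ τ

/-- `j` has a simple pole at `q = 0`. -/
theorem coeff_jOneBar_ne_zero (M : ℕ) [NeZero M] :
    ((jOneBar M : FOneBar M) : LaurentSeries Kbar).coeff (-1) ≠ 0 := by
  show (coeffEmb Kbar jq).coeff (-1) ≠ 0
  rw [coeffEmb_coeff, coeff_jq_neg_one, map_one]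
  exact one_ne_zero

/-- a diamond automorphism fixes `j`. -/
theorem isDiamond_jOneBar {M : ℕ} [NeZero M] {d : (ZMod M)ˣ} {δ : FOneBar M ≃ₐ[Kbar] FOneBar M}
    (hδ : IsDiamond M d δ) : δ (jOneBar M) = jOneBar M := by
  have hmem : jq ∈ divisorExpansions M := by
    have h := mem_divisorExpansions M (d := 1) (one_dvd M)
    rwa [qExpand_one_apply] at h
  exact hδ.1 jq hmem (jOneBar M).2

/-- the image of `j` in the ambient field. -/
theorem embOne_jOneBar {M m₀ : ℕ} [NeZero M] [NeZero m₀] (p : ℕ) [NeZero p] (hMm : M ∣ m₀)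
    (FI : FrickeInputs M m₀) : embOne p hMm FI (jOneBar M) = jLHb (m₀ * p) := by
  apply expLHb_injective (m₀ * p)
  rw [expLHb_embOne, ← jdLHb_one, expLHb_jdLHb, qExpand_congr (mul_one (m₀ * p))]
  show qExpand Kbar (m₀ * p) (coeffEmb Kbar jq) = _
  rw [coeffEmb_jq_a1]

/-- **K5 = the twisted norm product formula at level `Γ₁(M)`** (P6 Kron, unconditional). -/
theorem normProductOne (M : ℕ) [NeZero M] : Fermat.Agent.S48WPort.NormProductOne M := by
  intro p _ hp hpM δ hδ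
  haveI : NeZero (M * M) := ⟨mul_ne_zero (NeZero.ne M) (NeZero.ne M)⟩
  haveI : NeZero (M * M * p) := ⟨mul_ne_zero (NeZero.ne (M * M)) (NeZero.ne p)⟩
  have FI : FrickeInputs M (M * M) := frickeInputs_final M
  have hMm : M ∣ M * M := dvd_mul_right M M
  have hj : embOne p hMm FI (jOneBar M) = jLHb (M * M * p) := embOne_jOneBar p hMm FI
  refine normProductGen_of_abstract (FOne_le_FOneP M p) p hp
    (fun _ hy => qExpand_mem_FOneP M p hy) δ (Γ := SL(2, ℤ)) (L := LHb (M * M * p)) (M * M)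
    (embOne p hMm FI) (embOneP p hMm FI) (embOneP_alpha p hMm FI)
    (expLHb (M * M * p) : LHb (M * M * p) →+* LaurentSeries Kbar)
    (fun x => expLHb_embOneP p hMm FI x) (jOneBar M)
    (exists_finiteIndex_fixing_LHb (M * M * p)) ?_ ?_ (kronGamma M p hpM) ?_ ?_
    (kronZeta M p) (kronZeta_isPrimitiveRoot M p)
    (kron_hconj_ringHom M p hpM δ hδ (embOneP p hMm FI)
      (fun x => expLHb_embOneP p hMm FI x))
    (jOneBar M) (isDiamond_jOneBar hδ) (coeff_jOneBar_ne_zero M)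
  · -- `ht`
    intro g
    rw [hj]
    exact smul_jLHb _ g
  · -- `hfix`
    intro x hx
    rw [hj]
    exact mem_adjoin_jLHb_of_invariant _ x hx
  · -- `hγ`
    intro b x
    exact smul_embOne_of_mem_Gamma1 p hMm FI (kronGamma_mem_Gamma1 M p hpM b) x
  · -- `hcov`
    intro g hg
    have hH : Gamma1 M ≤ algFixer (fun x => embOne p hMm FI x) := fun γ hγ x =>
      smul_embOne_of_mem_Gamma1 p hMm FI hγ x
    rcases kron_hcov_smul_of M p hp hpM (algFixer (fun x => embOne p hMm FI x)) hH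
        (Set.range (embOneP p hMm FI))
        (fun h hh y hy => by
          obtain ⟨x', rfl⟩ := hy
          exact smul_embOneP_of_fix p hMm FI hpM hh.1 hh.2 x')
        g hg with h | ⟨b, hb, h⟩
    · exact Or.inl fun x' => h _ ⟨x', rfl⟩
    · exact Or.inr ⟨b, hb, fun x' => h _ ⟨x', rfl⟩⟩

end Fermat.Agent.S48WKron
end
end MergeWrap_S48_W_G_Kron_Final
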